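import Mathlib
import Fermat.Agent.LT.H11.LC
import Fermat.Agent.LT.H11.SC

/-!
# Row LT, tower T1, asset SCALE (helper849), part 2: the module of `K_v`, `v` finite

OFF-MAIN.  Mathlib + byte-identical copies of `LT/H11/{LC,SC}.lean` (helper11).

For a number field `K`, a finite place `v` and `F = v.adicCompletion K`:
`distribHaarChar_adicCompletion849 : distribHaarChar F y = ‖y‖₊` for every `y : Fˣ`, i.e. every
Haar measure `ν` of `K_v` satisfies `ν (y • S) = ‖y‖ ν S`, with the NORMALISED absolute value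
(`‖ϖ‖ = 1 / N(v)`, Mathlib's `NumberField.instNormedFieldValuedAdicCompletion`).
Proof: `𝒪_v` is the disjoint union of `N(v)` translates of `ϖ 𝒪_v`.
-/

set_option autoImplicit false
set_option linter.unusedSectionVars false

open IsDedekindDomain NumberField MeasureTheory MeasureTheory.Measure
open scoped NNReal ENNReal Pointwise WithZero

namespace Fermat.Agent.LT.T1.H849

open Fermat.Agent.LT.H11.LC Fermat.Agent.LT.H11.SC

section Local

variable (K : Type*) [Field K] [NumberField K] (v : HeightOneSpectrum (𝓞 K))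

/-- The closed unit ball `𝒪_v` of `K_v`, as a set. -/
def intBall849 : Set (v.adicCompletion K) := {x | Valued.v x ≤ 1}

/-- The open unit ball `𝔪_v` of `K_v`, as a set. -/
def maxBall849 : Set (v.adicCompletion K) := {x | Valued.v x < 1}

lemma intBall849_eq : intBall849 K v = (v.adicCompletionIntegers K : Set (v.adicCompletion K)) := by
  ext x
  exact (HeightOneSpectrum.mem_adicCompletionIntegers (𝓞 K) K v).symm

lemma isCompact_intBall849 : IsCompact (intBall849 K v) := by
  rw [intBall849_eq]
  exact isCompact_integers_h11 K v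

lemma isOpen_intBall849 : IsOpen (intBall849 K v) := by
  rw [intBall849_eq]
  exact Valued.isOpen_valuationSubring _

lemma isOpen_maxBall849 : IsOpen (maxBall849 K v) := isOpen_valued_lt_one_h11 K v

lemma zero_mem_intBall849 : (0 : v.adicCompletion K) ∈ intBall849 K v := by
  simp [intBall849]

lemma interior_intBall849_nonempty : (interior (intBall849 K v)).Nonempty := by
  rw [(isOpen_intBall849 K v).interior_eq]
  exact ⟨0, zero_mem_intBall849 K v⟩

/-- Valuation of the image of an integer of `K`. -/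
lemma valued_algebraMap_int849 (a : 𝓞 K) :
    Valued.v (algebraMap (𝓞 K) (v.adicCompletion K) a) = v.intValuation a := by
  have h3 : Valued.v (algebraMap (𝓞 K) (v.adicCompletion K) a)
      = v.valuation K (algebraMap (𝓞 K) K a) :=
    HeightOneSpectrum.valuedAdicCompletion_eq_valuation (K := K) v a
  rw [h3, HeightOneSpectrum.valuation_of_algebraMap]

lemma valued_algebraMap_int_le849 (a : 𝓞 K) :
    Valued.v (algebraMap (𝓞 K) (v.adicCompletion K) a) ≤ 1 := by
  rw [valued_algebraMap_int849]
  exact HeightOneSpectrum.intValuation_le_one v a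

lemma valued_algebraMap_int_lt849 (a : 𝓞 K) :
    Valued.v (algebraMap (𝓞 K) (v.adicCompletion K) a) < 1 ↔ a ∈ v.asIdeal := by
  rw [valued_algebraMap_int849]
  exact HeightOneSpectrum.intValuation_lt_one_iff_mem v a

/-- The translate `c + 𝔪_v`. -/
def coset849 (c : v.adicCompletion K) : Set (v.adicCompletion K) := {x | Valued.v (x - c) < 1}

lemma coset849_eq_preimage (c : v.adicCompletion K) :
    coset849 K v c = (fun x => -c + x) ⁻¹' maxBall849 K v := by
  ext x
  simp only [coset849, maxBall849, Set.mem_ofPred_eq, Set.mem_preimage]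
  rw [show -c + x = x - c by ring]

lemma isOpen_coset849 (c : v.adicCompletion K) : IsOpen (coset849 K v c) := by
  rw [coset849_eq_preimage]
  exact (isOpen_maxBall849 K v).preimage (continuous_const.add continuous_id)

/-- Representatives of the residue classes. -/
noncomputable def rep849 (r : 𝓞 K ⧸ v.asIdeal) : v.adicCompletion K :=
  algebraMap (𝓞 K) (v.adicCompletion K) (Function.surjInv Ideal.Quotient.mk_surjective r)

lemma rep849_le (r : 𝓞 K ⧸ v.asIdeal) : Valued.v (rep849 K v r) ≤ 1 :=
  valued_algebraMap_int_le849 K v _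

lemma intBall849_eq_iUnion :
    intBall849 K v = ⋃ r : 𝓞 K ⧸ v.asIdeal, coset849 K v (rep849 K v r) := by
  ext x
  simp only [Set.mem_iUnion]
  constructor
  · intro hx
    obtain ⟨a, ha⟩ := exists_valued_sub_algebraMap_lt_one_h11 K v x hx
    refine ⟨Ideal.Quotient.mk v.asIdeal a, ?_⟩
    have h1 : Ideal.Quotient.mk v.asIdeal
        (Function.surjInv Ideal.Quotient.mk_surjective (Ideal.Quotient.mk v.asIdeal a))
        = Ideal.Quotient.mk v.asIdeal a := Function.surjInv_eq _ _
    have h2 : a - Function.surjInv Ideal.Quotient.mk_surjective (Ideal.Quotient.mk v.asIdeal a)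
        ∈ v.asIdeal := by
      rw [← Ideal.Quotient.eq]; exact h1.symm
    have h3 := (valued_algebraMap_int_lt849 K v _).2 h2
    rw [map_sub] at h3
    have e : x - rep849 K v (Ideal.Quotient.mk v.asIdeal a)
        = (x - algebraMap (𝓞 K) (v.adicCompletion K) a)
          + (algebraMap (𝓞 K) (v.adicCompletion K) a - rep849 K v (Ideal.Quotient.mk v.asIdeal a)) := by
      ring
    show Valued.v (x - rep849 K v (Ideal.Quotient.mk v.asIdeal a)) < 1
    rw [e]
    exact lt_of_le_of_lt (Valuation.map_add _ _ _) (max_lt ha h3)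
  · rintro ⟨r, hr⟩
    have e : x = (x - rep849 K v r) + rep849 K v r := by ring
    show Valued.v x ≤ 1
    rw [e]
    exact le_trans (Valuation.map_add _ _ _) (max_le (le_of_lt hr) (rep849_le K v r))

lemma coset849_disjoint : Pairwise (Function.onFun Disjoint
    (fun r : 𝓞 K ⧸ v.asIdeal => coset849 K v (rep849 K v r))) := by
  intro r r' hrr'
  rw [Function.onFun, Set.disjoint_left]
  intro x hx hx'
  apply hrr'
  have h1 : Valued.v (rep849 K v r - rep849 K v r') < 1 := by
    have e : rep849 K v r - rep849 K v r' = (x - rep849 K v r') - (x - rep849 K v r) := by ring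
    rw [e]
    exact lt_of_le_of_lt (Valuation.map_sub _ _ _) (max_lt hx' hx)
  rw [rep849, rep849, ← map_sub, valued_algebraMap_int_lt849, ← Ideal.Quotient.eq] at h1
  have e1 := Function.surjInv_eq (Ideal.Quotient.mk_surjective (I := v.asIdeal)) r
  have e2 := Function.surjInv_eq (Ideal.Quotient.mk_surjective (I := v.asIdeal)) r'
  rw [← e1, ← e2]
  exact h1

variable [MeasurableSpace (v.adicCompletion K)] [BorelSpace (v.adicCompletion K)]

/-- `ν(𝒪_v) = N(v) ν(𝔪_v)` for every translation invariant measure. -/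
lemma measure_intBall849 (ν : Measure (v.adicCompletion K)) [IsAddLeftInvariant ν] :
    ν (intBall849 K v) = (Ideal.absNorm v.asIdeal : ℝ≥0∞) * ν (maxBall849 K v) := by
  have hfin : Finite (𝓞 K ⧸ v.asIdeal) := Ideal.finiteQuotientOfFreeOfNeBot v.asIdeal v.ne_bot
  have := Fintype.ofFinite (𝓞 K ⧸ v.asIdeal)
  rw [intBall849_eq_iUnion, measure_iUnion (coset849_disjoint K v)
    (fun r => (isOpen_coset849 K v _).measurableSet)]
  have hc : ∀ r : 𝓞 K ⧸ v.asIdeal, ν (coset849 K v (rep849 K v r)) = ν (maxBall849 K v) := by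
    intro r
    rw [coset849_eq_preimage, measure_preimage_add]
  simp_rw [hc]
  rw [tsum_fintype, Finset.sum_const, Finset.card_univ, nsmul_eq_mul]
  congr 2
  rw [Ideal.absNorm_apply, Submodule.cardQuot_apply, Nat.card_eq_fintype_card]

end Local

section Char

variable (K : Type*) [Field K] [NumberField K] (v : HeightOneSpectrum (𝓞 K))

lemma valued_units_ne_zero849 (y : (v.adicCompletion K)ˣ) :
    Valued.v (y : v.adicCompletion K) ≠ 0 :=
  (Valuation.ne_zero_iff _).2 y.ne_zero

lemma mem_smul_iff849 (y : (v.adicCompletion K)ˣ) (S : Set (v.adicCompletion K))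
    (x : v.adicCompletion K) :
    x ∈ y • S ↔ ((y⁻¹ : (v.adicCompletion K)ˣ) : v.adicCompletion K) * x ∈ S := by
  rw [Set.mem_smul_set_iff_inv_smul_mem, Units.smul_def, smul_eq_mul]

lemma smul_intBall_of_valued_eq_one849 (u : (v.adicCompletion K)ˣ)
    (hu : Valued.v (u : v.adicCompletion K) = 1) : u • intBall849 K v = intBall849 K v := by
  ext x
  rw [mem_smul_iff849]
  simp only [intBall849, Set.mem_ofPred_eq, Valuation.map_mul, Units.val_inv_eq_inv_val,
    map_inv₀, hu, inv_one, one_mul]

lemma lt_one_iff_le_exp849 (a : ℤᵐ⁰) : a < 1 ↔ a ≤ WithZero.exp (-1 : ℤ) := by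
  by_cases ha : a = 0
  · subst ha
    simp
  · rw [← WithZero.exp_log ha, ← WithZero.exp_zero, WithZero.exp_lt_exp, WithZero.exp_le_exp]
    omega

lemma smul_intBall_uniformizer849 (ϖ : (v.adicCompletion K)ˣ)
    (hϖ : Valued.v (ϖ : v.adicCompletion K) = WithZero.exp (-1 : ℤ)) :
    ϖ • intBall849 K v = maxBall849 K v := by
  ext x
  rw [mem_smul_iff849]
  simp only [intBall849, maxBall849, Set.mem_ofPred_eq, Valuation.map_mul,
    Units.val_inv_eq_inv_val, map_inv₀, hϖ]
  rw [lt_one_iff_le_exp849, inv_mul_le_iff₀ (by simp), mul_one]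

/-- A uniformiser of `K_v`, as a unit. -/
lemma exists_uniformizer_unit849 :
    ∃ ϖ : (v.adicCompletion K)ˣ, Valued.v (ϖ : v.adicCompletion K) = WithZero.exp (-1 : ℤ) := by
  obtain ⟨π, hπ⟩ := v.valuation_exists_uniformizer K
  have h1 : Valued.v (algebraMap K (v.adicCompletion K) π) = WithZero.exp (-1 : ℤ) := by
    rw [← hπ]
    exact HeightOneSpectrum.valuedAdicCompletion_eq_valuation' v π
  have h0 : algebraMap K (v.adicCompletion K) π ≠ 0 := by
    intro h
    rw [h, Valuation.map_zero] at h1
    exact WithZero.exp_ne_zero h1.symm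
  exact ⟨Units.mk0 _ h0, h1⟩

variable [LocallyCompactSpace (v.adicCompletion K)]

lemma addHaar_intBall_ne_zero849 [MeasurableSpace (v.adicCompletion K)]
    [BorelSpace (v.adicCompletion K)] (ν : Measure (v.adicCompletion K)) [IsAddHaarMeasure ν] :
    ν (intBall849 K v) ≠ 0 :=
  ((isOpen_intBall849 K v).measure_pos ν ⟨0, zero_mem_intBall849 K v⟩).ne'

lemma addHaar_intBall_ne_top849 [MeasurableSpace (v.adicCompletion K)]
    [BorelSpace (v.adicCompletion K)] (ν : Measure (v.adicCompletion K)) [IsAddHaarMeasure ν] :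
    ν (intBall849 K v) ≠ ∞ :=
  (isCompact_intBall849 K v).measure_lt_top.ne

lemma distribHaarChar_of_valued_eq_one849 (u : (v.adicCompletion K)ˣ)
    (hu : Valued.v (u : v.adicCompletion K) = 1) :
    distribHaarChar (v.adicCompletion K) u = 1 := by
  borelize (v.adicCompletion K)
  refine distribHaarChar_eq_of_measure_smul_eq_mul (μ := (addHaar : Measure (v.adicCompletion K)))
    (s := intBall849 K v) (addHaar_intBall_ne_zero849 K v _) (addHaar_intBall_ne_top849 K v _) ?_
  rw [smul_intBall_of_valued_eq_one849 K v u hu]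
  simp

lemma absNorm_nnreal_ne_zero849 : (Ideal.absNorm v.asIdeal : ℝ≥0) ≠ 0 :=
  HeightOneSpectrum.absNorm_ne_zero v

lemma distribHaarChar_uniformizer849 (ϖ : (v.adicCompletion K)ˣ)
    (hϖ : Valued.v (ϖ : v.adicCompletion K) = WithZero.exp (-1 : ℤ)) :
    distribHaarChar (v.adicCompletion K) ϖ = (Ideal.absNorm v.asIdeal : ℝ≥0)⁻¹ := by
  borelize (v.adicCompletion K)
  refine distribHaarChar_eq_of_measure_smul_eq_mul (μ := (addHaar : Measure (v.adicCompletion K)))
    (s := intBall849 K v) (addHaar_intBall_ne_zero849 K v _) (addHaar_intBall_ne_top849 K v _) ?_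
  rw [smul_intBall_uniformizer849 K v ϖ hϖ, measure_intBall849 K v addHaar,
    ENNReal.coe_inv (absNorm_nnreal_ne_zero849 K v), ← mul_assoc]
  have hq : ((Ideal.absNorm v.asIdeal : ℝ≥0) : ℝ≥0∞) = (Ideal.absNorm v.asIdeal : ℝ≥0∞) := by
    simp
  rw [hq, ENNReal.inv_mul_cancel (by
    simpa using (Ideal.absNorm_ne_zero_iff _).2
      (Ideal.finiteQuotientOfFreeOfNeBot v.asIdeal v.ne_bot)) (by simp), one_mul]

/-- The normalised absolute value, in terms of the valuation. -/
lemma nnnorm_eq849 (x : v.adicCompletion K) :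
    ‖x‖₊ = WithZeroMulInt.toNNReal (HeightOneSpectrum.absNorm_ne_zero v) (Valued.v x) :=
  NNReal.coe_injective (FinitePlace.norm_def v x)

/-- **The module of `K_v`**: `distribHaarChar K_v y = ‖y‖_v` (normalised absolute value). -/
theorem distribHaarChar_adicCompletion849 (y : (v.adicCompletion K)ˣ) :
    distribHaarChar (v.adicCompletion K) y = ‖(y : v.adicCompletion K)‖₊ := by
  obtain ⟨ϖ, hϖ⟩ := exists_uniformizer_unit849 K v
  have hy0 := valued_units_ne_zero849 K v y
  set n : ℤ := WithZero.log (Valued.v (y : v.adicCompletion K)) with hn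
  have hyn : Valued.v (y : v.adicCompletion K) = WithZero.exp n := (WithZero.exp_log hy0).symm
  -- `u = y ϖ^n` is a unit of `𝒪_v`
  have hu : Valued.v ((y * ϖ ^ n : (v.adicCompletion K)ˣ) : v.adicCompletion K) = 1 := by
    rw [Units.val_mul, Units.val_zpow_eq_zpow_val, Valuation.map_mul, map_zpow₀, hϖ, hyn,
      ← WithZero.exp_zsmul, ← WithZero.exp_add]
    simp
  have h1 := distribHaarChar_of_valued_eq_one849 K v _ hu
  rw [map_mul, map_zpow, distribHaarChar_uniformizer849 K v ϖ hϖ] at h1
  have hq0 := absNorm_nnreal_ne_zero849 K v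
  have h2 : distribHaarChar (v.adicCompletion K) y = (Ideal.absNorm v.asIdeal : ℝ≥0) ^ n := by
    have h3 : ((Ideal.absNorm v.asIdeal : ℝ≥0)⁻¹) ^ n ≠ 0 := zpow_ne_zero _ (inv_ne_zero hq0)
    have := eq_div_of_mul_eq h3 h1
    rw [this, inv_zpow, one_div, inv_inv]
  rw [h2, nnnorm_eq849, WithZeroMulInt.toNNReal_neg_apply _ hy0]
  congr 1
  simp only [hyn]
  rfl

end Char

end Fermat.Agent.LT.T1.H849
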