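import Mathlib

/-!
# Row LT, tower T1 (groups and measures): `GL₂(𝔸_K)` is UNIMODULAR

OFF-MAIN, Mathlib only (helper849, volunteer under option B; CLAIM T1.UNIMOD).
Reference: Godement, *Domaines fondamentaux des groupes arithmétiques* / Jacquet–Langlands §9
("`GL₂(𝔸)` is unimodular"), here by a purely algebraic argument.

## Results (all hypothesis-parametrised on `[LocallyCompactSpace (GL (Fin 2) 𝔸_K)]` = leaf T1.LC)

* `hom_eq_one_of_stableRangeOne849`: over a commutative ring `R` of stable range one
  (`StableRangeOne849 R`: `r a + s c = 1 → ∃ x, IsUnit (a + x c)`), every monoid homomorphism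
  `GL₂(R) → A`, `A` a commutative monoid with `t * t = 1 → t = 1`, which is trivial on the scalar
  matrices, is trivial.  (`diag(-1,1)` conjugates a transvection to its inverse; the Weyl element
  swaps `diag(u,v)` and `diag(v,u)`; Gauss elimination with a unit pivot.)
* `stableRangeOne_adele849`: the adele ring of a number field has stable range one
  (`stableRangeOne_finiteAdele849`: so has the finite adele ring of any Dedekind domain; the pivot
  `x` has components `0` or `1`, units by `FiniteAdeleRing.isUnit_iff`).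
* `modularCharacter_central849`: the modular character of a locally compact group is trivial on
  the centre.
* `modularCharacter_adelicGL2_849`: the modular character of `GL₂(𝔸_K)` is trivial.
* `adelicGL2_map_mul_right849`, `adelicGL2_isMulRightInvariant849` (regular Haar measures),
  `..._innerRegular849` (inner regular Haar measures), `adelicGL2_integral_mul_right849`
  (EVERY Haar measure, continuous functions with compact support): right invariance.
-/

set_option autoImplicit false

open Matrix IsDedekindDomain NumberField MeasureTheory MeasureTheory.Measure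
open scoped NNReal

namespace Fermat.Agent.LT.T1.H849

/-- Stable range one, for unimodular pairs. -/
def StableRangeOne849 (R : Type*) [CommRing R] : Prop :=
  ∀ a c r s : R, r * a + s * c = 1 → ∃ x : R, IsUnit (a + x * c)

section Algebra

variable {R : Type*} [CommRing R]

/-- The upper transvection `[1, x; 0, 1]`. -/
def upT849 (x : R) : GL (Fin 2) R :=
  ⟨!![1, x; 0, 1], !![1, -x; 0, 1], by simp [Matrix.one_fin_two], by simp [Matrix.one_fin_two]⟩

/-- The lower transvection `[1, 0; x, 1]`. -/
def loT849 (x : R) : GL (Fin 2) R :=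
  ⟨!![1, 0; x, 1], !![1, 0; -x, 1], by simp [Matrix.one_fin_two], by simp [Matrix.one_fin_two]⟩

/-- The diagonal matrix `diag(u, v)`. -/
def dg849 (u v : Rˣ) : GL (Fin 2) R :=
  ⟨!![(u : R), 0; 0, (v : R)], !![((u⁻¹ : Rˣ) : R), 0; 0, ((v⁻¹ : Rˣ) : R)],
    by simp [Matrix.one_fin_two], by simp [Matrix.one_fin_two]⟩

/-- The Weyl element `[0, 1; 1, 0]`. -/
def wE849 : GL (Fin 2) R :=
  ⟨!![0, 1; 1, 0], !![0, 1; 1, 0], by simp [Matrix.one_fin_two], by simp [Matrix.one_fin_two]⟩

@[simp] lemma coe_upT849 (x : R) : ((upT849 x : GL (Fin 2) R) : Matrix (Fin 2) (Fin 2) R)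
    = !![1, x; 0, 1] := rfl

@[simp] lemma coe_loT849 (x : R) : ((loT849 x : GL (Fin 2) R) : Matrix (Fin 2) (Fin 2) R)
    = !![1, 0; x, 1] := rfl

@[simp] lemma coe_dg849 (u v : Rˣ) : ((dg849 u v : GL (Fin 2) R) : Matrix (Fin 2) (Fin 2) R)
    = !![(u : R), 0; 0, (v : R)] := rfl

@[simp] lemma coe_wE849 : ((wE849 : GL (Fin 2) R) : Matrix (Fin 2) (Fin 2) R)
    = !![0, 1; 1, 0] := rfl

lemma dg_conj_upT849 (x : R) :
    dg849 (-1) 1 * upT849 x = (upT849 x)⁻¹ * dg849 (-1 : Rˣ) 1 := by
  rw [eq_inv_mul_iff_mul_eq]
  apply Units.ext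
  simp

lemma wE_conj_upT849 (x : R) : wE849 * upT849 x = loT849 x * wE849 := by
  apply Units.ext
  simp

lemma wE_conj_dg849 (u v : Rˣ) : wE849 * dg849 u v = dg849 v u * wE849 := by
  apply Units.ext
  simp

lemma dg_mul_dg_swap849 (u v : Rˣ) :
    dg849 u v * dg849 v u = Matrix.GeneralLinearGroup.scalar (Fin 2) (u * v) := by
  apply Units.ext
  ext i j
  fin_cases i <;> fin_cases j <;> simp [mul_comm]

/-- Gauss elimination with a unit pivot `a' = g₀₀ + x g₁₀`. -/
lemma gauss849 (g : GL (Fin 2) R) (x : R) (a' : Rˣ) (ha' : (a' : R) = g 0 0 + x * g 1 0) :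
    loT849 (-(g 1 0 * ((a'⁻¹ : Rˣ) : R))) * (upT849 x * g)
        * upT849 (-(((a'⁻¹ : Rˣ) : R) * (g 0 1 + x * g 1 1)))
      = dg849 a' (a'⁻¹ * Matrix.GeneralLinearGroup.det g) := by
  have hinv : ((a'⁻¹ : Rˣ) : R) * (g 0 0 + x * g 1 0) = 1 := by
    rw [← ha']; exact Units.inv_mul a'
  have hdet : ((Matrix.GeneralLinearGroup.det g : Rˣ) : R) = g 0 0 * g 1 1 - g 0 1 * g 1 0 := by
    simp [Matrix.det_fin_two]
  apply Units.ext
  have hg : (g : Matrix (Fin 2) (Fin 2) R) = !![g 0 0, g 0 1; g 1 0, g 1 1] :=
    Matrix.eta_fin_two _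
  simp only [Units.val_mul, coe_upT849, coe_loT849, coe_dg849, hdet]
  rw [hg]
  simp only [Matrix.mul_fin_two, Matrix.of_apply, Matrix.cons_val', Matrix.cons_val_zero,
    Matrix.cons_val_one, Matrix.cons_val_fin_one]
  ext i j
  fin_cases i <;> fin_cases j
  · simp [ha']
  · simp; linear_combination (-(g 0 1 + x * g 1 1)) * hinv
  · simp; linear_combination (-(g 1 0)) * hinv
  · simp; linear_combination (g 1 0 * ((a'⁻¹ : Rˣ) : R) * (g 0 1 + x * g 1 1) - g 1 1) * hinv

end Algebra

section Hom

variable {R : Type*} [CommRing R] {A : Type*} [CommMonoid A] (χ : GL (Fin 2) R →* A)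

/-- A homomorphism to a commutative monoid is constant on conjugacy classes. -/
lemma hom_eq_of_conj849 {h g g' : GL (Fin 2) R} (e : h * g = g' * h) : χ g = χ g' := by
  have h1 : χ h * χ g = χ g' * χ h := by rw [← map_mul, ← map_mul, e]
  have hu : IsUnit (χ h) := (Group.isUnit h).map χ
  rw [mul_comm] at h1
  exact hu.mul_right_cancel h1

variable (hA : ∀ t : A, t * t = 1 → t = 1)
include hA

lemma hom_upT849 (x : R) : χ (upT849 x) = 1 := by
  apply hA
  have h1 : χ (upT849 x) = χ ((upT849 x)⁻¹) := hom_eq_of_conj849 χ (dg_conj_upT849 x)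
  nth_rewrite 2 [h1]
  rw [← map_mul, mul_inv_cancel, map_one]

lemma hom_loT849 (x : R) : χ (loT849 x) = 1 := by
  rw [← hom_eq_of_conj849 χ (wE_conj_upT849 x)]
  exact hom_upT849 χ hA x

lemma hom_dg849 (hc : ∀ z : Rˣ, χ (Matrix.GeneralLinearGroup.scalar (Fin 2) z) = 1)
    (u v : Rˣ) : χ (dg849 u v) = 1 := by
  apply hA
  have h1 : χ (dg849 u v) = χ (dg849 v u) := hom_eq_of_conj849 χ (wE_conj_dg849 u v)
  nth_rewrite 2 [h1]
  rw [← map_mul, dg_mul_dg_swap849, hc]

/-- **Algebraic core.**  Over a commutative ring of stable range one, a homomorphism from `GL₂`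
to a commutative monoid without `2`-torsion which is trivial on the scalar matrices is trivial. -/
theorem hom_eq_one_of_stableRangeOne849 (hsr : StableRangeOne849 R)
    (hc : ∀ z : Rˣ, χ (Matrix.GeneralLinearGroup.scalar (Fin 2) z) = 1)
    (g : GL (Fin 2) R) : χ g = 1 := by
  have hdet : ((Matrix.GeneralLinearGroup.det g : Rˣ) : R) = g 0 0 * g 1 1 - g 0 1 * g 1 0 := by
    simp [Matrix.det_fin_two]
  have hinv : (((Matrix.GeneralLinearGroup.det g)⁻¹ : Rˣ) : R)
      * (g 0 0 * g 1 1 - g 0 1 * g 1 0) = 1 := by
    rw [← hdet]; exact Units.inv_mul _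
  obtain ⟨x, hx⟩ := hsr (g 0 0) (g 1 0)
    ((((Matrix.GeneralLinearGroup.det g)⁻¹ : Rˣ) : R) * g 1 1)
    (-((((Matrix.GeneralLinearGroup.det g)⁻¹ : Rˣ) : R) * g 0 1))
    (by linear_combination hinv)
  obtain ⟨a', ha'⟩ := hx
  have key := congrArg χ (gauss849 g x a' ha')
  rw [map_mul, map_mul, map_mul, hom_loT849 χ hA, hom_upT849 χ hA, hom_upT849 χ hA,
    hom_dg849 χ hA hc, one_mul, one_mul, mul_one] at key
  exact key

end Hom

/-! ## Stable range one: fields, products, adeles -/

lemma stableRangeOne_field849 (F : Type*) [Field F] : StableRangeOne849 F := by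
  intro a c r s h
  by_cases ha : a = 0
  · refine ⟨1, ?_⟩
    have hc : c ≠ 0 := by
      rintro rfl
      rw [ha] at h
      simp at h
    simpa [ha] using hc.isUnit
  · exact ⟨0, by simpa using (isUnit_iff_ne_zero.mpr ha)⟩

lemma stableRangeOne_pi849 {ι : Type*} (S : ι → Type*) [∀ i, CommRing (S i)]
    (h : ∀ i, StableRangeOne849 (S i)) : StableRangeOne849 (∀ i, S i) := by
  intro a c r s hrs
  have hi : ∀ i, ∃ x : S i, IsUnit (a i + x * c i) := fun i =>
    h i (a i) (c i) (r i) (s i) (by simpa using congrFun hrs i)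
  choose x hx using hi
  exact ⟨x, Pi.isUnit_iff.mpr hx⟩

lemma stableRangeOne_prod849 {S T : Type*} [CommRing S] [CommRing T]
    (hS : StableRangeOne849 S) (hT : StableRangeOne849 T) : StableRangeOne849 (S × T) := by
  intro a c r s hrs
  obtain ⟨x, hx⟩ := hS a.1 c.1 r.1 s.1 (by simpa using congrArg Prod.fst hrs)
  obtain ⟨y, hy⟩ := hT a.2 c.2 r.2 s.2 (by simpa using congrArg Prod.snd hrs)
  exact ⟨(x, y), Prod.isUnit_iff.mpr ⟨hx, hy⟩⟩

section FiniteAdele

variable (R : Type*) [CommRing R] [IsDedekindDomain R] (K : Type*) [Field K] [Algebra R K]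
  [IsFractionRing R K]

open scoped Classical in
/-- The integral finite adele with components `0` (where `|c_v| ≤ |a_v|`) and `1` (elsewhere). -/
noncomputable def pivot849 (a c : FiniteAdeleRing R K) : FiniteAdeleRing R K :=
  ⟨fun v => if Valued.v (c v) ≤ Valued.v (a v) then 0 else 1,
    Filter.Eventually.of_forall (fun v => by
      by_cases h : Valued.v (c v) ≤ Valued.v (a v)
      · simp only [h, if_true]; exact zero_mem _
      · simp only [h, if_false]; exact one_mem _)⟩

open scoped Classical in
lemma pivot849_apply (a c : FiniteAdeleRing R K) (v : HeightOneSpectrum R) :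
    pivot849 R K a c v = if Valued.v (c v) ≤ Valued.v (a v) then 0 else 1 := rfl

lemma stableRangeOne_finiteAdele849 : StableRangeOne849 (FiniteAdeleRing R K) := by
  classical
  intro a c r s hrs
  refine ⟨pivot849 R K a c, ?_⟩
  have hv : ∀ v : HeightOneSpectrum R, r v * a v + s v * c v = 1 := fun v =>
    congrArg (fun z : FiniteAdeleRing R K => z v) hrs
  have happ : ∀ v : HeightOneSpectrum R, (a + pivot849 R K a c * c) v
      = a v + (if Valued.v (c v) ≤ Valued.v (a v) then 0 else 1) * c v := fun v => rfl
  rw [FiniteAdeleRing.isUnit_iff]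
  constructor
  · intro v
    rw [happ]
    by_cases h : Valued.v (c v) ≤ Valued.v (a v)
    · simp only [h, if_true, zero_mul, add_zero]
      intro ha
      have hc : c v = 0 := by
        rw [ha, Valuation.map_zero] at h
        exact (Valuation.zero_iff _).mp (le_antisymm h zero_le)
      have := hv v
      rw [ha, hc] at this
      simp at this
    · simp only [h, if_false, one_mul]
      rw [not_le] at h
      intro h0
      have h1 : Valued.v (a v + c v) = Valued.v (c v) := Valuation.map_add_eq_of_lt_right _ h
      rw [h0, Valuation.map_zero] at h1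
      rw [← h1] at h
      exact not_lt_zero h
  · filter_upwards [a.2, c.2, r.2, s.2] with v ha hc hr hs
    rw [happ]
    have ha1 : Valued.v (a v) ≤ 1 := ha
    have hc1 : Valued.v (c v) ≤ 1 := hc
    have hr1 : Valued.v (r v) ≤ 1 := hr
    have hs1 : Valued.v (s v) ≤ 1 := hs
    have hmax : (1 : WithZero (Multiplicative ℤ)) ≤ max (Valued.v (a v)) (Valued.v (c v)) := by
      have h1 : Valued.v (r v * a v + s v * c v) = 1 := by rw [hv v, Valuation.map_one]
      have h2 := Valuation.map_add (Valued.v) (r v * a v) (s v * c v)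
      rw [h1, Valuation.map_mul, Valuation.map_mul] at h2
      refine h2.trans (max_le_max ?_ ?_)
      · exact mul_le_of_le_one_left' hr1
      · exact mul_le_of_le_one_left' hs1
    by_cases h : Valued.v (c v) ≤ Valued.v (a v)
    · simp only [h, if_true, zero_mul, add_zero]
      rw [max_eq_left h] at hmax
      exact le_antisymm ha1 hmax
    · simp only [h, if_false, one_mul]
      rw [not_le] at h
      rw [Valuation.map_add_eq_of_lt_right _ h]
      rw [max_eq_right h.le] at hmax
      exact le_antisymm hc1 hmax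

end FiniteAdele

lemma stableRangeOne_infiniteAdele849 (K : Type*) [Field K] [NumberField K] :
    StableRangeOne849 (InfiniteAdeleRing K) :=
  stableRangeOne_pi849 (fun v : InfinitePlace K => v.Completion)
    (fun v => stableRangeOne_field849 v.Completion)

/-- **The adele ring of a number field has stable range one.** -/
theorem stableRangeOne_adele849 (K : Type*) [Field K] [NumberField K] :
    StableRangeOne849 (AdeleRing (𝓞 K) K) :=
  stableRangeOne_prod849 (stableRangeOne_infiniteAdele849 K)
    (stableRangeOne_finiteAdele849 (𝓞 K) K)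

section Measure

variable {G : Type*} [Group G] [TopologicalSpace G] [IsTopologicalGroup G] [LocallyCompactSpace G]

/-- The modular character is trivial on the centre. -/
lemma modularCharacter_central849 (z : G) (hz : ∀ g : G, z * g = g * z) :
    modularCharacter z = 1 := by
  borelize G
  show modularCharacterFun z = 1
  rw [modularCharacterFun_eq_haarScalarFactor (MeasureTheory.Measure.haar : Measure G) z]
  have hfun : (fun x : G => x * z) = (fun x => z * x) := funext (fun x => (hz x).symm)
  have hm : map (fun x : G => x * z) (MeasureTheory.Measure.haar : Measure G)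
      = MeasureTheory.Measure.haar := by
    rw [hfun]; exact map_mul_left_eq_self _ z
  have key : ∀ (ν : Measure G) [IsHaarMeasure ν], ν = MeasureTheory.Measure.haar →
      haarScalarFactor ν (MeasureTheory.Measure.haar : Measure G) = 1 := by
    intro ν _ h
    subst h
    exact haarScalarFactor_self _
  exact key _ hm

lemma nnreal_no_two_torsion849 (t : ℝ≥0) (ht : t * t = 1) : t = 1 :=
  (pow_eq_one_iff_of_nonneg zero_le two_ne_zero).mp (by rw [sq]; exact ht)

variable [MeasurableSpace G] [BorelSpace G]

/-- Unimodular group: an inner regular Haar measure is right invariant. -/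
theorem map_mul_right_eq_self_of_innerRegular849 (h1 : ∀ g : G, modularCharacter g = 1)
    (μ : Measure G) [IsHaarMeasure μ] [InnerRegular μ] (g : G) : map (· * g) μ = μ := by
  rw [map_right_mul_eq_modularCharacterFun_smul μ g]
  have : modularCharacterFun g = 1 := h1 g
  rw [this, one_smul]

theorem isMulRightInvariant_of_innerRegular849 (h1 : ∀ g : G, modularCharacter g = 1)
    (μ : Measure G) [IsHaarMeasure μ] [InnerRegular μ] : μ.IsMulRightInvariant :=
  ⟨fun g => map_mul_right_eq_self_of_innerRegular849 h1 μ g⟩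

/-- Unimodular group: a regular Haar measure is right invariant. -/
theorem map_mul_right_eq_self_of_regular849 (h1 : ∀ g : G, modularCharacter g = 1)
    (μ : Measure G) [IsHaarMeasure μ] [Regular μ] (g : G) : map (· * g) μ = μ := by
  have : Regular (map (· * g) μ) := Regular.map (Homeomorph.mulRight g)
  have e := isMulLeftInvariant_eq_smul_of_regular (map (· * g) μ) μ
  rw [← modularCharacterFun_eq_haarScalarFactor μ g, show modularCharacterFun g = 1 from h1 g,
    one_smul] at e
  exact e

theorem isMulRightInvariant_of_regular849 (h1 : ∀ g : G, modularCharacter g = 1)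
    (μ : Measure G) [IsHaarMeasure μ] [Regular μ] : μ.IsMulRightInvariant :=
  ⟨fun g => map_mul_right_eq_self_of_regular849 h1 μ g⟩

/-- Unimodular group: for EVERY Haar measure the integral of a continuous function with compact
support is right invariant. -/
theorem integral_mul_right_eq_self849 (h1 : ∀ g : G, modularCharacter g = 1)
    (μ : Measure G) [IsHaarMeasure μ] {f : G → ℝ} (hf : Continuous f)
    (hfc : HasCompactSupport f) (g : G) : ∫ x, f (x * g) ∂μ = ∫ x, f x ∂μ := by
  have e := integral_isMulLeftInvariant_eq_smul_of_hasCompactSupport (map (· * g) μ) μ hf hfc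
  rw [← modularCharacterFun_eq_haarScalarFactor μ g, show modularCharacterFun g = 1 from h1 g,
    one_smul, integral_map (AEMeasurable.mul_const aemeasurable_id' _)
      hf.aestronglyMeasurable] at e
  exact e

end Measure

/-! ## The statements for `GL₂` -/

section GL2

/-- `GL₂(R)` is unimodular for a topological ring `R` of stable range one. -/
theorem modularCharacter_GL2_eq_one849 {R : Type*} [CommRing R] [TopologicalSpace R]
    [IsTopologicalRing R] [LocallyCompactSpace (GL (Fin 2) R)] (hsr : StableRangeOne849 R)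
    (g : GL (Fin 2) R) : modularCharacter g = 1 :=
  hom_eq_one_of_stableRangeOne849 modularCharacter nnreal_no_two_torsion849 hsr
    (fun z => modularCharacter_central849 _
      (fun g => Matrix.GeneralLinearGroup.scalar_commute z g)) g

variable (K : Type*) [Field K] [NumberField K]
  [LocallyCompactSpace (GL (Fin 2) (AdeleRing (𝓞 K) K))]

/-- **`GL₂(𝔸_K)` is unimodular**: its modular character is trivial. -/
theorem modularCharacter_adelicGL2_849 (g : GL (Fin 2) (AdeleRing (𝓞 K) K)) :
    modularCharacter g = 1 :=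
  modularCharacter_GL2_eq_one849 (stableRangeOne_adele849 K) g

variable [MeasurableSpace (GL (Fin 2) (AdeleRing (𝓞 K) K))]
  [BorelSpace (GL (Fin 2) (AdeleRing (𝓞 K) K))]

/-- A regular Haar measure on `GL₂(𝔸_K)` is invariant under right translations. -/
theorem adelicGL2_map_mul_right849 (μ : Measure (GL (Fin 2) (AdeleRing (𝓞 K) K)))
    [IsHaarMeasure μ] [Regular μ] (g : GL (Fin 2) (AdeleRing (𝓞 K) K)) :
    map (· * g) μ = μ :=
  map_mul_right_eq_self_of_regular849 (modularCharacter_adelicGL2_849 K) μ g

/-- A regular Haar measure on `GL₂(𝔸_K)` is right invariant. -/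
theorem adelicGL2_isMulRightInvariant849 (μ : Measure (GL (Fin 2) (AdeleRing (𝓞 K) K)))
    [IsHaarMeasure μ] [Regular μ] : μ.IsMulRightInvariant :=
  isMulRightInvariant_of_regular849 (modularCharacter_adelicGL2_849 K) μ

/-- An inner regular Haar measure on `GL₂(𝔸_K)` is invariant under right translations. -/
theorem adelicGL2_map_mul_right_innerRegular849 (μ : Measure (GL (Fin 2) (AdeleRing (𝓞 K) K)))
    [IsHaarMeasure μ] [InnerRegular μ] (g : GL (Fin 2) (AdeleRing (𝓞 K) K)) :
    map (· * g) μ = μ :=
  map_mul_right_eq_self_of_innerRegular849 (modularCharacter_adelicGL2_849 K) μ g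

/-- An inner regular Haar measure on `GL₂(𝔸_K)` is right invariant. -/
theorem adelicGL2_isMulRightInvariant_innerRegular849
    (μ : Measure (GL (Fin 2) (AdeleRing (𝓞 K) K))) [IsHaarMeasure μ] [InnerRegular μ] :
    μ.IsMulRightInvariant :=
  isMulRightInvariant_of_innerRegular849 (modularCharacter_adelicGL2_849 K) μ

/-- For EVERY Haar measure on `GL₂(𝔸_K)` the integral of a continuous function with compact
support is invariant under right translations. -/
theorem adelicGL2_integral_mul_right849 (μ : Measure (GL (Fin 2) (AdeleRing (𝓞 K) K)))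
    [IsHaarMeasure μ] {f : GL (Fin 2) (AdeleRing (𝓞 K) K) → ℝ} (hf : Continuous f)
    (hfc : HasCompactSupport f) (g : GL (Fin 2) (AdeleRing (𝓞 K) K)) :
    ∫ x, f (x * g) ∂μ = ∫ x, f x ∂μ :=
  integral_mul_right_eq_self849 (modularCharacter_adelicGL2_849 K) μ hf hfc g

end GL2

end Fermat.Agent.LT.T1.H849
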