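import Mathlib
import Fermat.Agent.LT.H11.LC
import Fermat.Agent.LT.H11.SC
import Fermat.Agent.LT.T1.H849.Unimod

/-!
# Row LT, tower T1: Haar measures on `GL₂(𝔸_K)` — UNCONDITIONAL form

OFF-MAIN (helper849).  Imports: Mathlib, `Unimod.lean` (T1.UNIMOD) and byte-identical copies of
`LT/H11/LC.lean`, `LT/H11/SC.lean` (helper11: `GL₂(𝔸_K)` is locally compact, Hausdorff, second
countable).

For a number field `K` and EVERY Haar measure `μ` on `GL₂(𝔸_K)` (Borel σ-algebra):

* `adelicGL2_haar_regular849`, `adelicGL2_haar_sigmaFinite849`: `μ` is regular and σ-finite;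
* `adelicGL2_haar_isMulRightInvariant849`: `μ` is right invariant (`GL₂(𝔸_K)` is unimodular);
* `adelicGL2_haar_isInvInvariant849`: `μ` is invariant under `g ↦ g⁻¹`;
* `adelicGL2_integral_mul_right849'`, `adelicGL2_integral_inv849`: the change of variables
  `∫ f (x g) dμ = ∫ f dμ = ∫ f (x⁻¹) dμ` for every `f` with values in a normed space.

Generic: `isInvInvariant_of_regular849` (a regular Haar measure on a locally compact group with
trivial modular character is inversion invariant).
-/

set_option autoImplicit false

open Matrix IsDedekindDomain NumberField MeasureTheory MeasureTheory.Measure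
open scoped NNReal ENNReal

namespace Fermat.Agent.LT.T1.H849

section Generic

variable {G : Type*} [Group G] [TopologicalSpace G] [IsTopologicalGroup G] [LocallyCompactSpace G]
  [MeasurableSpace G] [BorelSpace G]

/-- In a unimodular group a regular Haar measure is invariant under inversion. -/
theorem isInvInvariant_of_regular849 (h1 : ∀ g : G, modularCharacter g = 1)
    (μ : Measure G) [IsHaarMeasure μ] [Regular μ] : IsInvInvariant μ := by
  have hr : μ.IsMulRightInvariant := isMulRightInvariant_of_regular849 h1 μ
  constructor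
  let c : ℝ≥0∞ := haarScalarFactor μ.inv μ
  have hc : μ.inv = c • μ := isMulLeftInvariant_eq_smul_of_regular μ.inv μ
  have : map Inv.inv (map Inv.inv μ) = c ^ 2 • μ := by
    rw [← inv_def μ, hc, Measure.map_smul, ← inv_def μ, hc, smul_smul, pow_two]
  have μeq : μ = c ^ 2 • μ := by
    rw [map_map continuous_inv.measurable continuous_inv.measurable] at this
    simpa only [inv_involutive, Function.Involutive.comp_self, Measure.map_id]
  have K : TopologicalSpace.PositiveCompacts G := Classical.arbitrary _
  have : c ^ 2 * μ K = 1 ^ 2 * μ K := by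
    conv_rhs => rw [μeq]
    simp
  have : c ^ 2 = 1 ^ 2 :=
    (ENNReal.mul_left_inj (measure_pos_of_nonempty_interior _ K.interior_nonempty).ne'
          K.isCompact.measure_lt_top.ne).1 this
  have : c = 1 := (ENNReal.pow_right_strictMono two_ne_zero).injective this
  rw [hc, this, one_smul]

end Generic

section Adelic

open Fermat.Agent.LT.H11.LC Fermat.Agent.LT.H11.SC

variable (K : Type*) [Field K] [NumberField K]
  [MeasurableSpace (GL (Fin 2) (AdeleRing (𝓞 K) K))]
  [BorelSpace (GL (Fin 2) (AdeleRing (𝓞 K) K))]
  (μ : Measure (GL (Fin 2) (AdeleRing (𝓞 K) K))) [IsHaarMeasure μ]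

/-- Every Haar measure on `GL₂(𝔸_K)` is regular. -/
theorem adelicGL2_haar_regular849 : Regular μ := by
  have := locallyCompactSpace_GL2_adeleRing_h11 K
  have := secondCountableTopology_GL2_adeleRing_h11 K
  have := t2Space_GL2_adeleRing_h11 K
  infer_instance

omit [BorelSpace (GL (Fin 2) (AdeleRing (𝓞 K) K))] in
/-- Every Haar measure on `GL₂(𝔸_K)` is σ-finite. -/
theorem adelicGL2_haar_sigmaFinite849 : SigmaFinite μ := by
  have := locallyCompactSpace_GL2_adeleRing_h11 K
  have := secondCountableTopology_GL2_adeleRing_h11 K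
  have := t2Space_GL2_adeleRing_h11 K
  infer_instance

/-- **`GL₂(𝔸_K)` is unimodular**: every Haar measure is right invariant. -/
theorem adelicGL2_haar_isMulRightInvariant849 : μ.IsMulRightInvariant := by
  have := locallyCompactSpace_GL2_adeleRing_h11 K
  have := adelicGL2_haar_regular849 K μ
  exact adelicGL2_isMulRightInvariant849 K μ

/-- Every Haar measure on `GL₂(𝔸_K)` is invariant under inversion. -/
theorem adelicGL2_haar_isInvInvariant849 : μ.IsInvInvariant := by
  have := locallyCompactSpace_GL2_adeleRing_h11 K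
  have := adelicGL2_haar_regular849 K μ
  exact isInvInvariant_of_regular849 (modularCharacter_adelicGL2_849 K) μ

/-- Right translation preserves every Haar measure on `GL₂(𝔸_K)`. -/
theorem adelicGL2_measurePreserving_mul_right849 (g : GL (Fin 2) (AdeleRing (𝓞 K) K)) :
    MeasurePreserving (· * g) μ μ := by
  have := adelicGL2_haar_isMulRightInvariant849 K μ
  exact measurePreserving_mul_right μ g

/-- Change of variables `x ↦ x g` on `GL₂(𝔸_K)`. -/
theorem adelicGL2_integral_mul_right849' {E : Type*} [NormedAddCommGroup E] [NormedSpace ℝ E]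
    (f : GL (Fin 2) (AdeleRing (𝓞 K) K) → E) (g : GL (Fin 2) (AdeleRing (𝓞 K) K)) :
    ∫ x, f (x * g) ∂μ = ∫ x, f x ∂μ := by
  have := adelicGL2_haar_isMulRightInvariant849 K μ
  exact integral_mul_right_eq_self f g

/-- Change of variables `x ↦ x⁻¹` on `GL₂(𝔸_K)`. -/
theorem adelicGL2_integral_inv849 {E : Type*} [NormedAddCommGroup E] [NormedSpace ℝ E]
    (f : GL (Fin 2) (AdeleRing (𝓞 K) K) → E) :
    ∫ x, f x⁻¹ ∂μ = ∫ x, f x ∂μ := by
  have := adelicGL2_haar_isInvInvariant849 K μ
  exact integral_inv_eq_self f μ

end Adelic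

end Fermat.Agent.LT.T1.H849
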